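-- Statement S21 : the Eichler-Shimura isomorphism for `periodHomPair`.
import Fermat.Statements.S21
import Fermat.Agent.S21.Assembly
import Fermat.Agent.ES.Cohomology
import Fermat.Agent.ES.Count
import Fermat.Agent.ES.Separation

set_option autoImplicit false
open ModularCurve

namespace Fermat.Agent.S21

theorem result (N : ℕ) [NeZero N] :
    Function.Injective (ModularCurve.periodHomPair N)
      ∧ LinearMap.range (ModularCurve.periodHomPair N)
          = ModularCurve.Period.parabolicHoms ℂ (CongruenceSubgroup.Gamma0 N) ℂ := by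
  have hneg : (-1 : Matrix.SpecialLinearGroup (Fin 2) ℤ) ∈ CongruenceSubgroup.Gamma0 N := by
    rw [CongruenceSubgroup.Gamma0_mem]
    simp
  obtain ⟨hfin, hle⟩ :=
    Fermat.Agent.ES.finrank_parabolicHoms_add_le (CongruenceSubgroup.Gamma0 N) hneg
  have hlow := Fermat.Agent.ES.index_add_two_le hneg (Fermat.Agent.ES.separates_Gamma0 N)
  have hCF : Module.finrank ℂ (Fermat.Agent.ES.CF (CongruenceSubgroup.Gamma0 N) 2)
      = Module.finrank ℂ (CuspForm (CongruenceSubgroup.Gamma0 N) 2) :=
    (Fermat.Agent.ES.CFequiv (CongruenceSubgroup.Gamma0 N) 2).finrank_eq.symm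
  rw [hCF] at hlow
  exact eichlerShimura_of_finrank_le N hfin (by omega)

end Fermat.Agent.S21
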