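import Fermat.Statements.S05
import Fermat.Agent.S05.Defs
import Fermat.Agent.S05.Inertia
import Fermat.Agent.S05.FreyArith
import Fermat.Agent.S05.WModel
import Fermat.Agent.S05.Main
import Fermat.Agent.S05.Frey

set_option autoImplicit false
open WeierstrassCurve WeierstrassCurve.Affine WeierstrassCurve.Affine.Point
open CuspForm ModularFormClass UpperHalfPlane
open FreyPackage

namespace Fermat.Agent.S05

section
variable {L : Type*} [Field L] [Algebra ℚ L] [DecidableEq L] [CharZero L]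

theorem frey_coeffs (P : FreyPackage) :
    (P.freyCurve⁄L).b₂ / 4 = ((P.b : L) ^ P.p - (P.a : L) ^ P.p) / 4 ∧
    (P.freyCurve⁄L).b₄ / 2 = -((P.a : L) ^ P.p * (P.b : L) ^ P.p) / 16 ∧
    (P.freyCurve⁄L).b₆ / 4 = 0 := by
  refine ⟨?_, ?_, ?_⟩
  · simp only [WeierstrassCurve.baseChange, WeierstrassCurve.b₂, freyCurve, WeierstrassCurve.map_a₁,
      WeierstrassCurve.map_a₂]
    simp only [map_pow, map_one, map_div₀, map_sub, map_ofNat, map_intCast]
    ring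
  · simp only [WeierstrassCurve.baseChange, WeierstrassCurve.b₄, freyCurve, WeierstrassCurve.map_a₁,
      WeierstrassCurve.map_a₃, WeierstrassCurve.map_a₄]
    simp only [map_mul, map_pow, map_one, map_div₀, map_ofNat, map_intCast,
      map_neg, _root_.map_zero]
    ring
  · simp only [WeierstrassCurve.baseChange, WeierstrassCurve.b₆, freyCurve, WeierstrassCurve.map_a₃,
      WeierstrassCurve.map_a₆]
    simp

/-- The Frey curve as a model of `Y² = X (X - δ) (X - u)`, after translating by `r`. -/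
theorem frey_model_shift (P : FreyPackage) (A : ValuationSubring L)
    (σ : L ≃ₐ[ℚ] L) (hσ : σ ∈ A.inertiaSubgroupIn ℚ)
    (r δ u : L) (hr : σ r = r)
    (h₂ : -(δ + u) = ((P.b : L) ^ P.p - (P.a : L) ^ P.p) / 4 + 3 * r)
    (h₄ : δ * u = -((P.a : L) ^ P.p * (P.b : L) ^ P.p) / 16
      + 2 * (((P.b : L) ^ P.p - (P.a : L) ^ P.p) / 4) * r + 3 * r ^ 2)
    (h₆ : 0 = 0 + -((P.a : L) ^ P.p * (P.b : L) ^ P.p) / 16 * r
      + ((P.b : L) ^ P.p - (P.a : L) ^ P.p) / 4 * r ^ 2 + r ^ 3) :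
    ∃ M : Model (P.freyCurve⁄L).Point (-(δ + u)) (δ * u) 0,
      IsInertial A.valuation M (σ : L →+* L) (Point.map (W' := P.freyCurve) σ.toAlgHom) := by
  obtain ⟨c₂, c₄, c₆⟩ := frey_coeffs (L := L) P
  have I := isInertial_weierstrass P.freyCurve (two_ne_zero : (2 : L) ≠ 0) A σ hσ
  rw [← c₂, ← c₄] at h₄ h₆
  rw [← c₂] at h₂
  nth_rewrite 2 [← c₆] at h₆
  exact ⟨_, I.shift hr h₂ h₄ h₆⟩

end

theorem result (P : FreyPackage) {q : ℕ} (hq : q.Prime) (hq2 : q ≠ 2) (hqp : q ≠ P.p) : P.GaloisRepUnramifiedAt q := by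
  intro A hA σ hσ x
  apply Subtype.ext
  obtain ⟨x, hx⟩ := x
  change Point.map (W' := P.freyCurve) σ.toAlgHom x = x
  rw [Submodule.mem_torsionBy_iff, natCast_zsmul] at hx
  have hv2 : A.valuation (2 : AlgebraicClosure ℚ) = 1 := by
    have := val_natCast_eq_one A hq hA (n := 2)
      (fun h => hq2 ((Nat.prime_dvd_prime_iff_eq hq Nat.prime_two).mp h))
    simpa using this
  have hv4 : A.valuation (4 : AlgebraicClosure ℚ) = 1 := by
    have : (4 : AlgebraicClosure ℚ) = 2 * 2 := by norm_num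
    rw [this, map_mul, hv2, one_mul]
  have hvp : A.valuation (P.p : AlgebraicClosure ℚ) = 1 :=
    val_natCast_eq_one A hq hA (fun h => hqp ((Nat.prime_dvd_prime_iff_eq hq P.pp).mp h))
  have hFLT : (P.a : AlgebraicClosure ℚ) ^ P.p + (P.b : AlgebraicClosure ℚ) ^ P.p
      = (P.c : AlgebraicClosure ℚ) ^ P.p := by
    exact_mod_cast congrArg (Int.cast : ℤ → AlgebraicClosure ℚ) P.hFLT
  have hp2 : P.p ≠ 2 := by have := P.hp5; omega
  have vd4 : ∀ z : AlgebraicClosure ℚ, A.valuation (z / 4) = A.valuation z := by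
    intro z; rw [map_div₀, hv4, div_one]
  have vn4 : ∀ z : AlgebraicClosure ℚ, A.valuation (-z / 4) = A.valuation z := by
    intro z; rw [vd4, Valuation.map_neg]
  have vunit : ∀ n : ℤ, ¬ (q : ℤ) ∣ n → A.valuation ((n : AlgebraicClosure ℚ) ^ P.p) = 1 := by
    intro n hn; rw [map_pow, val_intCast_eq_one A hq hA hn, one_pow]
  have vlt : ∀ n : ℤ, (q : ℤ) ∣ n → A.valuation ((n : AlgebraicClosure ℚ) ^ P.p) < 1 := by
    intro n hn; rw [map_pow]
    exact pow_lt_one₀ zero_le (val_intCast_lt_one A hA hn) P.hp0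
  have hsq : ∀ u : AlgebraicClosure ℚ, ∃ α : AlgebraicClosure ℚ, α ^ 2 = -u := fun u =>
    IsAlgClosed.exists_pow_nat_eq (-u) (by norm_num)
  have hne : ∀ n : ℤ, n ≠ 0 → (n : AlgebraicClosure ℚ) ^ P.p ≠ 0 := fun n hn =>
    pow_ne_zero _ (Int.cast_ne_zero.mpr hn)
  have hσi : ∀ n : ℤ, (σ : AlgebraicClosure ℚ →+* AlgebraicClosure ℚ) (n : AlgebraicClosure ℚ)
      = (n : AlgebraicClosure ℚ) := fun n => map_intCast _ n
  rcases frey_cases P hq with ⟨ha, hb, hc⟩ | ⟨ha, hb, hc⟩ | ⟨ha, hb, hc⟩ | ⟨ha, hb, hc⟩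
  · -- good reduction
    obtain ⟨M, I⟩ := frey_model_shift P A σ hσ 0 ((P.a : AlgebraicClosure ℚ) ^ P.p / 4)
      (-(P.b : AlgebraicClosure ℚ) ^ P.p / 4) (map_zero σ) (by ring) (by ring) (by ring)
    refine M.fixed_good A.valuation ?_ ?_ ?_ hv2 hvp I hx
    · rw [vn4]; exact vunit _ hb
    · rw [vd4]; exact vunit _ ha
    · have : (P.a : AlgebraicClosure ℚ) ^ P.p / 4 - -(P.b : AlgebraicClosure ℚ) ^ P.p / 4
          = (P.c : AlgebraicClosure ℚ) ^ P.p / 4 := by rw [← hFLT]; ring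
      rw [this, vd4]; exact vunit _ hc
  · -- `q ∣ a`
    obtain ⟨M, I⟩ := frey_model_shift P A σ hσ 0 ((P.a : AlgebraicClosure ℚ) ^ P.p / 4)
      (-(P.b : AlgebraicClosure ℚ) ^ P.p / 4) (map_zero σ) (by ring) (by ring) (by ring)
    obtain ⟨α, hα⟩ := hsq (-(P.b : AlgebraicClosure ℚ) ^ P.p / 4)
    refine M.fixed_mult A.valuation (d := (P.a : AlgebraicClosure ℚ)) ?_ ?_ ?_ hv2 hα P.pp hp2 hvp
      ?_ I (hσi _) hx
    · rw [vn4]; exact vunit _ hb
    · exact div_ne_zero (hne _ P.ha0) (by norm_num)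
    · rw [vd4]; exact vlt _ ha
    · rw [vd4, map_pow]
  · -- `q ∣ b`
    obtain ⟨M, I⟩ := frey_model_shift P A σ hσ 0 (-(P.b : AlgebraicClosure ℚ) ^ P.p / 4)
      ((P.a : AlgebraicClosure ℚ) ^ P.p / 4) (map_zero σ) (by ring) (by ring) (by ring)
    obtain ⟨α, hα⟩ := hsq ((P.a : AlgebraicClosure ℚ) ^ P.p / 4)
    refine M.fixed_mult A.valuation (d := (P.b : AlgebraicClosure ℚ)) ?_ ?_ ?_ hv2 hα P.pp hp2 hvp
      ?_ I (hσi _) hx
    · rw [vd4]; exact vunit _ ha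
    · exact div_ne_zero (neg_ne_zero.mpr (hne _ P.hb0)) (by norm_num)
    · rw [vn4]; exact vlt _ hb
    · rw [vn4, map_pow]
  · -- `q ∣ c`
    obtain ⟨M, I⟩ := frey_model_shift P A σ hσ ((P.a : AlgebraicClosure ℚ) ^ P.p / 4)
      (-(P.c : AlgebraicClosure ℚ) ^ P.p / 4)
      (-(P.a : AlgebraicClosure ℚ) ^ P.p / 4)
      (by simp only [map_div₀, map_pow, map_intCast, map_ofNat])
      (by rw [← hFLT]; ring) (by rw [← hFLT]; ring) (by ring)
    obtain ⟨α, hα⟩ := hsq (-(P.a : AlgebraicClosure ℚ) ^ P.p / 4)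
    refine M.fixed_mult A.valuation (d := (P.c : AlgebraicClosure ℚ)) ?_ ?_ ?_ hv2 hα P.pp hp2 hvp
      ?_ I (hσi _) hx
    · rw [vn4]; exact vunit _ ha
    · exact div_ne_zero (neg_ne_zero.mpr (hne _ P.hc0)) (by norm_num)
    · rw [vn4]; exact vlt _ hc
    · rw [vn4, map_pow]

end Fermat.Agent.S05
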