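import Fermat.Statements.S02
-- import your own Fermat.Agent.* helpers here

set_option autoImplicit false
open FreyPackage

namespace Fermat.Agent.S02

/-- Coprime solution with `b` even: normalise the sign so that `a ≡ 3 mod 4`. -/
theorem aux_even_b (a b c : ℤ) (ha : a ≠ 0) (hb : b ≠ 0) (hc : c ≠ 0) (p : ℕ) (pp : p.Prime)
    (hp5 : 5 ≤ p) (H : a ^ p + b ^ p = c ^ p) (hgcd : gcd a b = 1) (hb2 : (2 : ℤ) ∣ b) :
    Nonempty FreyPackage := by
  have hpodd : Odd p := pp.odd_of_ne_two (by omega)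
  have ha_odd : ¬ (2 : ℤ) ∣ a := by
    intro h
    have h2 : (2 : ℤ) ∣ gcd a b := dvd_gcd h hb2
    rw [hgcd] at h2
    norm_num at h2
  have h4 : a % 4 = 1 ∨ a % 4 = 3 := by omega
  rcases h4 with h | h
  · refine ⟨{ a := -a, b := -b, c := -c, ha0 := neg_ne_zero.2 ha, hb0 := neg_ne_zero.2 hb,
              hc0 := neg_ne_zero.2 hc, p := p, pp := pp, hp5 := hp5, hFLT := ?_, hgcdab := ?_,
              ha4 := ?_, hb2 := ?_ }⟩
    · rw [hpodd.neg_pow, hpodd.neg_pow, hpodd.neg_pow, ← H]; ring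
    · rw [gcd_neg, neg_gcd]; exact hgcd
    · have h3 : ((-a : ℤ) : ZMod 4) = ((3 : ℤ) : ZMod 4) := by
        rw [ZMod.intCast_eq_intCast_iff_dvd_sub]
        push_cast
        omega
      rw [h3]; rfl
    · rw [ZMod.intCast_zmod_eq_zero_iff_dvd]
      push_cast
      omega
  · refine ⟨{ a := a, b := b, c := c, ha0 := ha, hb0 := hb,
              hc0 := hc, p := p, pp := pp, hp5 := hp5, hFLT := H, hgcdab := hgcd,
              ha4 := ?_, hb2 := ?_ }⟩
    · have h3 : ((a : ℤ) : ZMod 4) = ((3 : ℤ) : ZMod 4) := by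
        rw [ZMod.intCast_eq_intCast_iff_dvd_sub]
        push_cast
        omega
      rw [h3]; rfl
    · rw [ZMod.intCast_zmod_eq_zero_iff_dvd]
      push_cast
      omega

/-- Coprime solution: move the even entry into the `b` slot. -/
theorem aux_coprime (a b c : ℤ) (ha : a ≠ 0) (hb : b ≠ 0) (hc : c ≠ 0) (p : ℕ) (pp : p.Prime)
    (hp5 : 5 ≤ p) (H : a ^ p + b ^ p = c ^ p) (hgcd : gcd a b = 1) :
    Nonempty FreyPackage := by
  have hpodd : Odd p := pp.odd_of_ne_two (by omega)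
  have hp0 : p ≠ 0 := by omega
  by_cases hb2 : (2 : ℤ) ∣ b
  · exact aux_even_b a b c ha hb hc p pp hp5 H hgcd hb2
  by_cases ha2 : (2 : ℤ) ∣ a
  · exact aux_even_b b a c hb ha hc p pp hp5 (by rw [add_comm]; exact H)
      (by rw [gcd_comm]; exact hgcd) ha2
  -- both odd, so `c` is even
  have hc2 : (2 : ℤ) ∣ c := by
    have hao : Odd a := by
      rw [← Int.not_even_iff_odd, even_iff_two_dvd]; exact ha2
    have hbo : Odd b := by
      rw [← Int.not_even_iff_odd, even_iff_two_dvd]; exact hb2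
    have hce : Even (c ^ p) := by
      rw [← H]; exact (hao.pow).add_odd (hbo.pow)
    have := (Int.even_pow.1 hce).1
    exact even_iff_two_dvd.1 this
  refine aux_even_b a (-c) (-b) ha (neg_ne_zero.2 hc) (neg_ne_zero.2 hb) p pp hp5 ?_ ?_
    ((dvd_neg).2 hc2)
  · rw [hpodd.neg_pow, hpodd.neg_pow, ← H]; ring
  · rw [gcd_neg, ← gcdab_eq_gcdac (by omega) H]; exact hgcd

theorem result (a b c : ℤ) (ha : a ≠ 0) (hb : b ≠ 0) (hc : c ≠ 0) (p : ℕ) (pp : p.Prime) (hp5 : 5 ≤ p) (H : a ^ p + b ^ p = c ^ p) : Nonempty FreyPackage := by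
  have hp0 : p ≠ 0 := by omega
  obtain ⟨a', b', ha', hb', hu⟩ := extract_gcd a b
  have hcop : gcd a' b' = 1 := by
    have h1 := normalize_gcd a' b'
    rw [normalize_eq_one.2 hu] at h1
    exact h1.symm
  set d : ℤ := gcd a b with hd
  have hd0 : d ≠ 0 := by
    intro h0
    rw [h0, zero_mul] at ha'
    exact ha ha'
  have hdc : d ∣ c := by
    rw [← Int.pow_dvd_pow_iff hp0, ← H]
    apply dvd_add <;> rw [Int.pow_dvd_pow_iff hp0]
    · exact gcd_dvd_left a b
    · exact gcd_dvd_right a b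
  obtain ⟨c', hc'⟩ := hdc
  have ha'0 : a' ≠ 0 := by
    intro h0
    rw [h0, mul_zero] at ha'
    exact ha ha'
  have hb'0 : b' ≠ 0 := by
    intro h0
    rw [h0, mul_zero] at hb'
    exact hb hb'
  have hc'0 : c' ≠ 0 := by
    intro h0
    rw [h0, mul_zero] at hc'
    exact hc hc'
  have H' : a' ^ p + b' ^ p = c' ^ p := by
    have hdp : d ^ p ≠ 0 := pow_ne_zero p hd0
    apply mul_left_cancel₀ hdp
    rw [mul_add, ← mul_pow, ← mul_pow, ← mul_pow, ← ha', ← hb', ← hc']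
    exact H
  exact aux_coprime a' b' c' ha'0 hb'0 hc'0 p pp hp5 H' hcop

end Fermat.Agent.S02
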