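import Fermat.Statements.S07
import Fermat.Prelude.Thm_ModularForm_sturm_bound_Gamma0
import Fermat.Prelude.Thm_CongruenceSubgroup_one_mem_strictPeriods_Gamma0
-- import your own Fermat.Agent.* helpers here

set_option autoImplicit false
open WeierstrassCurve WeierstrassCurve.Affine WeierstrassCurve.Affine.Point
open CuspForm ModularFormClass UpperHalfPlane
open ModularForm

namespace Fermat.Agent.S07

open scoped MatrixGroups

/-- Two elements of `SL(2, ℤ)` with the same first column mod `2` lie in the same left coset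
of `Γ₀(2)`. -/
theorem inv_mul_mem_Gamma0_two (g g' : SL(2, ℤ))
    (h0 : ((g 0 0 : ℤ) : ZMod 2) = ((g' 0 0 : ℤ) : ZMod 2))
    (h1 : ((g 1 0 : ℤ) : ZMod 2) = ((g' 1 0 : ℤ) : ZMod 2)) :
    g⁻¹ * g' ∈ CongruenceSubgroup.Gamma0 2 := by
  rw [CongruenceSubgroup.Gamma0_mem]
  have key : (g⁻¹ * g' : SL(2, ℤ)) 1 0 = - g 1 0 * g' 0 0 + g 0 0 * g' 1 0 := by
    rw [Matrix.SpecialLinearGroup.coe_mul, Matrix.SpecialLinearGroup.SL2_inv_expl,
      Matrix.mul_apply, Fin.sum_univ_two]
    simp
  rw [key]
  push_cast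
  rw [h0, h1]
  ring

/-- The index of `Γ₀(2)` in `SL(2, ℤ)` is at most `4` (it is `3`, but this crude bound is enough):
a left coset is determined by the first column mod `2` of any representative. -/
theorem index_Gamma0_two_le : (CongruenceSubgroup.Gamma0 2).index ≤ 4 := by
  classical
  have hφ : Function.Injective (fun q : SL(2, ℤ) ⧸ CongruenceSubgroup.Gamma0 2 =>
      ((((q.out : SL(2, ℤ)) 0 0 : ℤ) : ZMod 2), (((q.out : SL(2, ℤ)) 1 0 : ℤ) : ZMod 2))) := by
    intro q q' h
    simp only [Prod.mk.injEq] at h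
    obtain ⟨h0, h1⟩ := h
    rw [← Quotient.out_eq' q, ← Quotient.out_eq' q']
    exact QuotientGroup.eq.mpr (inv_mul_mem_Gamma0_two _ _ h0 h1)
  calc (CongruenceSubgroup.Gamma0 2).index
      = Nat.card (SL(2, ℤ) ⧸ CongruenceSubgroup.Gamma0 2) := rfl
    _ ≤ Nat.card (ZMod 2 × ZMod 2) := Nat.card_le_card_of_injective _ hφ
    _ = 4 := by simp

theorem result (f : CuspForm (CongruenceSubgroup.Gamma0 2) 2) : f = 0 := by
  have hF : (CuspForm.toModularFormₗ f) = 0 := by
    apply ModularForm.sturm_bound_Gamma0 2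
    intro n hn
    have hidx := index_Gamma0_two_le
    have hn0 : n = 0 := by
      have : ((2 : ℤ) * ((CongruenceSubgroup.Gamma0 2).index : ℤ)).toNat / 12 = 0 := by
        apply Nat.div_eq_of_lt
        omega
      omega
    subst hn0
    exact CuspFormClass.qExpansion_coeff_zero f one_pos
      (CongruenceSubgroup.one_mem_strictPeriods_Gamma0 2)
  exact CuspForm.toModularFormₗ_injective (by rw [hF, _root_.map_zero])

end Fermat.Agent.S07
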