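import Fermat.Statements.S11
import Fermat.Agent.Lib.Kummer.SetupCyclo
import Fermat.Agent.Lib.Kummer.UnitsGenerated
import Fermat.Agent.Lib.Kummer.PID11
import Fermat.Agent.Lib.Kummer.KummerLemma
import Fermat.Agent.Lib.Kummer.Cert11
import Fermat.Agent.Lib.Kummer.SophieGermain
import Fermat.Agent.Lib.Kummer.CaseII
import Fermat.Agent.Lib.Kummer.Glue

set_option autoImplicit false
open WeierstrassCurve WeierstrassCurve.Affine WeierstrassCurve.Affine.Point
open CuspForm ModularFormClass UpperHalfPlane
open FreyPackage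

namespace Fermat.Agent.S11

open Fermat.Agent.Lib.Kummer in
/-- The second case of Fermat's Last Theorem for exponent `11` (Kummer). -/
theorem caseII_eleven : CaseII 11 := by
  have : Fact (Nat.Prime 11) := ⟨by norm_num⟩
  have : IsCyclotomicExtension {11} ℚ (CyclotomicField 11 ℚ) :=
    CyclotomicField.isCyclotomicExtension 11 ℚ
  have hζ := IsCyclotomicExtension.zeta_spec 11 ℚ (CyclotomicField 11 ℚ)
  have S := setup_cyclotomic 11 (by norm_num) (CyclotomicField 11 ℚ) hζ
  have := pid_eleven (CyclotomicField 11 ℚ)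
  have hK := kummerLemma_of_certificate S
    (unitsGenerated_cyclotomic 11 (by norm_num) (CyclotomicField 11 ℚ)) (unitCertificate_eleven S)
  exact caseII_of_caseIIGen S (caseIIGen_of_kummerLemma S hK)

theorem result (P : FreyPackage) (hp : P.p = 11) : ¬ HasGaloisStableCofixedLine (K := AlgebraicClosure ℚ) ℚ P.freyCurve P.p := by
  exact (Fermat.Agent.Lib.Kummer.no_freyPackage Fermat.Agent.Lib.Kummer.caseI_eleven
    caseII_eleven P hp).elim

end Fermat.Agent.S11
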