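import Fermat.Statements.S13
import Fermat.Agent.S13.Assembly

set_option autoImplicit false
open WeierstrassCurve WeierstrassCurve.Affine WeierstrassCurve.Affine.Point
open CuspForm ModularFormClass UpperHalfPlane
open FreyPackage

namespace Fermat.Agent.S13

theorem result (P : FreyPackage) (hred : ¬ GaloisRepIsIrreducible (K := AlgebraicClosure ℚ) ℚ P.freyCurve P.p) : HasGaloisStableCofixedLine (K := AlgebraicClosure ℚ) ℚ P.freyCurve P.p := by
  have h1 : ¬ ∀ N : Submodule (ZMod P.p) (VK P), IsGaloisStable ℚ N → N = ⊥ ∨ N = ⊤ :=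
    fun h => hred ⟨VK_nontrivial P, h⟩
  push Not at h1
  obtain ⟨N, hst, hb, ht⟩ := h1
  exact ⟨N, hst, hb, ht, cofixed P N hst hb ht⟩

end Fermat.Agent.S13
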