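import Fermat.Statements.S14
import Fermat.Agent.S14.T1.Main
import Fermat.Agent.S14.FL.Main
import Fermat.Agent.S14.Core.Main

/-!
# S14 : `ExtVanishingCts p` for every prime `p ≥ 3`

Route (no class field theory):
* (T1) an admissible extension gives a cocycle `b`, hence a Kummer extension `E = K(β)` of
  `K = ℚ(ζ_p)` of type `ω²`, unramified outside `p` and split at `p`;
* (FL) `α = β^p` generates the `p`-th power of an ideal and is locally a `p`-th power;
* (Core) the `ω²`-part of the class group of `K` vanishes: Thaine's relation (Th) together with an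
  analytic density statement (An); the unit case is settled by (U).
-/

set_option autoImplicit false
open ExtCitation

namespace Fermat.Agent.S14

theorem result {p : ℕ} [Fact p.Prime] (h3 : 3 ≤ p) :
    ExtCitation.ExtVanishingCts p :=
  extVanishingCts_of_finiteLevel h3 fun _E _ _ _ ζ β hζ hβ0 hfaith hkum htype hunr hsplit =>
    FL.finiteLevel_of_core
      (fun _K _ _ _ _ζ hζ' α h0 h1 h2 h3' => core h3 hζ' α h0 h1 h2 h3')
      h3 ζ β hζ hβ0 hfaith hkum htype hunr hsplit

end Fermat.Agent.S14
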