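import Fermat.Statements.S20
import Fermat.Agent.S20.Assembly
import Fermat.Agent.ES.Count
import Fermat.Agent.ES.Separation

set_option autoImplicit false
open CuspForm

namespace Fermat.Agent.S20

theorem result (N : ℕ) [NeZero N] :
    (Module.finrank ℂ (CuspForm (CongruenceSubgroup.Gamma0 N) 2) : ℚ) = ModularCurve.genusFormula N := by
  exact dim_formula_of_lower N
    (Fermat.Agent.ES.index_add_two_le (neg_one_mem_Gamma0 N) (Fermat.Agent.ES.separates_Gamma0 N))

end Fermat.Agent.S20
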