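import Fermat.Statements.S22
import Fermat.Agent.S22.Algebra
import Fermat.Agent.S22.SmallWeight
import Fermat.Agent.S22.HeckeTU
import Fermat.Agent.S22.FG
import Fermat.Agent.S22.Sep

set_option autoImplicit false
open CuspForm

namespace Fermat.Agent.S22

theorem result (N : ℕ) [NeZero N] (k : ℤ) (S : Set ℕ) :
    Module.Finite ℤ (CuspForm.heckeAlgebra N k S) := by
  rcases le_or_gt k 1 with hk | hk
  · exact finite_heckeAlgebra_of_le_one N k hk S
  · obtain ⟨m, rfl⟩ : ∃ m : ℕ, k = (m : ℤ) + 2 := ⟨(k - 2).toNat, by omega⟩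
    refine finite_adjoin_of_lattice _ (Lam N m) (Lam_fg N m) ?_ (Lam_sep m)
    rintro T (⟨ℓ, hℓ, hℓN, -, rfl⟩ | ⟨q, hqN, hq, -, rfl⟩)
    · exact Lam_stable_T m hℓ hℓN
    · exact Lam_stable_U m hq hqN

end Fermat.Agent.S22
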