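import Fermat.Statements.S27
import Fermat.Agent.S27.A.FF1
import Fermat.Agent.S27.H.Main
import Fermat.Agent.S27.B.Lefschetz

set_option autoImplicit false
set_option autoImplicit false
open AlgebraicCurve
open AlgebraicCurve AlgebraicCurve.Pic0

namespace Fermat.Agent.S27

theorem result
    (K F : Type*) [Field K] [Field F] [Algebra K F] [IsAlgClosed K] [CharZero K]
    [IsCurveOver K F] [Algebra.EssFiniteType K F]
    (ℓ : ℕ) [Fact ℓ.Prime] (k : ℕ) :
    Nat.card (Pic0.torsion K F (ℓ ^ k)) = ℓ ^ (2 * genusFF K F * k) := by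
  have := isFF1_of_isCurveOver (K := K) (F := F)
  have hpos : 0 < ℓ ^ k := pow_pos (Fact.out : ℓ.Prime).pos k
  rw [card_torsion_of_complex (fun Fc _ _ _ n hn => card_torsion_complex Fc n hn) K F (ℓ ^ k) hpos,
    ← pow_mul]
  congr 1
  ring

end Fermat.Agent.S27
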