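-- Statement S44 (row 38): Mazur-Ribet for the Frey curve (the prime p can be removed from a conductor level).
-- Proof: Fermat.Agent.MR.s44_of (MR/Chain.lean) applied to the four blocks In, E, C, ORD core.
import Fermat.Statements.S44
import Fermat.Agent.MR.Chain
import Fermat.Agent.MR.E.EStmt
import Fermat.Agent.MR.H.In.Main
import Fermat.Agent.MR.C.X.Fin14
import Fermat.Agent.ORD.P3.TopCore

set_option autoImplicit false
open WeierstrassCurve WeierstrassCurve.Affine WeierstrassCurve.Affine.Point
open CuspForm ModularFormClass UpperHalfPlane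
open FreyPackage

namespace Fermat.Agent.S44

theorem result (P : FreyPackage) {N : ℕ} (hcond : P.IsConductorLevel N) (hpN : P.p ∣ N) (hirr : GaloisRepIsIrreducible (K := AlgebraicClosure ℚ) ℚ P.freyCurve P.p) (hmod : P.ModularRepOfLevel N) : ∃ M : ℕ, M ∣ N ∧ ¬ P.p ∣ M ∧ P.ModularRepOfLevel M := by
  exact Fermat.Agent.MR.s44_of Fermat.Agent.MR.H.In.inStatement Fermat.Agent.MR.E.eStatement
    Fermat.Agent.MR.C.cStatement14 Fermat.Agent.ORD.P3.core P hcond hpN hirr hmod

end Fermat.Agent.S44
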