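import Fermat.Statements.S49
import Fermat.Agent.S49.Lattice
import Fermat.Agent.S49.Lifting
import Fermat.Agent.S49.M3.Mod3

set_option autoImplicit false
open CuspForm EisensteinWeightOne CongruenceSubgroup ModularFormClass
open FLT FLT.AbstractIntegralStructure

namespace Fermat.Agent.S49

theorem result
    {N : ℕ} [NeZero N] (h : CuspForm.HasIntegralBasis N) {a : ℕ → ℤ}
    (heig : FormalHecke.IsEigensystem
      (fun ℓ => if ℓ ∣ N then 0 else ((chiNegThree ℓ : ℤ) : ℤ)) a)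
    (hreal : CuspForm.IsLatticeRealized N a) :
    ∃ (f : CuspForm (Gamma0 N) 2) (_ : f.IsNormalizedEigenform)
      (𝔪' : Ideal (integralClosure ℤ ℂ)), 𝔪'.IsMaximal ∧
      ((3 : ℕ) : integralClosure ℤ ℂ) ∈ 𝔪' ∧
      ∀ (ℓ : ℕ) (_ : ℓ.Prime) (_ : ¬ ℓ ∣ N),
        ∃ c : integralClosure ℤ ℂ, (c : ℂ) = ModularFormClass.qCoeff f ℓ ∧
          c - (a ℓ : integralClosure ℤ ℂ) ∈ 𝔪' := by
  obtain ⟨f0, -, af, haf, h3⟩ := hreal
  obtain ⟨hfin, hlam⟩ := hecke_main h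
  have hintg : Algebra.IsIntegral ℤ (heckeAlgebra N 2 ∅) := Algebra.IsIntegral.of_finite ℤ _
  -- a maximal ideal containing the annihilator of `f0` mod `3`
  have hne : M3.mod3Ideal f0 ≠ ⊤ := by
    rw [Ne, Ideal.eq_top_iff_one]
    exact M3.one_notMem_mod3Ideal heig f0 af haf h3
  obtain ⟨M, hM, hle⟩ := Ideal.exists_le_maximal _ hne
  obtain ⟨lam, 𝔪', h𝔪', hcomap⟩ := exists_lift_of_isMaximal M
  obtain ⟨f, hf1, hf⟩ := hlam ((algebraMap (integralClosure ℤ ℂ) ℂ).comp lam)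
  have hnorm : f.IsNormalizedEigenform := by
    refine isNormalizedEigenform_of_eigen f hf1 (fun ℓ hℓ hℓN => ?_) (fun q hq hqN => ?_)
    · exact ⟨_, hf (heckeAlgebra.T hℓ hℓN (Set.notMem_empty _))⟩
    · exact ⟨_, hf (heckeAlgebra.U hq hqN (Set.notMem_empty _))⟩
  refine ⟨f, hnorm, 𝔪', h𝔪', ?_, ?_⟩
  · have h3M : (3 : heckeAlgebra N 2 ∅) ∈ M := hle (M3.three_mem_mod3Ideal f0 af haf)
    rw [← hcomap, Ideal.mem_comap, map_ofNat] at h3M
    simpa using h3M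
  · intro ℓ hℓ hℓN
    refine ⟨lam (heckeAlgebra.T hℓ hℓN (Set.notMem_empty _)), ?_, ?_⟩
    · exact (qc_eq_of_heckeT_eq f hf1 hℓ hℓN
        (hf (heckeAlgebra.T hℓ hℓN (Set.notMem_empty _)))).symm
    · have hmem : M3.gen N ℓ hℓ - (a ℓ : heckeAlgebra N 2 ∅) ∈ M :=
        hle (M3.gen_sub_mem_mod3Ideal heig f0 af haf h3 ℓ hℓ)
      rw [← hcomap, Ideal.mem_comap, map_sub, map_intCast] at hmem
      have hgen : M3.gen N ℓ hℓ = heckeAlgebra.T hℓ hℓN (Set.notMem_empty _) := dif_neg hℓN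
      rw [hgen] at hmem
      exact hmem

end Fermat.Agent.S49
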