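import Fermat.Statements.S51
import Fermat.Agent.S51.Core
import Fermat.Agent.S51.E15
-- import your own Fermat.Agent.* helpers here

set_option autoImplicit false
open WeierstrassCurve WeierstrassCurve.Affine WeierstrassCurve.Affine.Point
open CuspForm ModularFormClass UpperHalfPlane
open WeierstrassCurve

namespace Fermat.Agent.S51

theorem result (W : WeierstrassCurve ℤ) (hΔ : W.Δ ≠ 0) (hW : W.IsSemistableModel) : W.ModRepIsIrreducible 3 ∨ W.ModRepIsIrreducible 5 := by
  by_contra hcon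
  rw [not_or] at hcon
  obtain ⟨h3, h5⟩ := hcon
  have hΔQ : (W.map (Int.castRingHom ℚ)).Δ ≠ 0 := by
    rw [WeierstrassCurve.map_Δ]
    simpa using hΔ
  obtain ⟨g, h, hg, hh, heq, hj⟩ := core (W.map (Int.castRingHom ℚ)) hΔQ h3 h5
  rw [WeierstrassCurve.map_c₄, WeierstrassCurve.map_Δ] at hj
  refine final_arith W.c₄ W.Δ h ?_ (by simpa using hj) (gh_list g h hg hh heq)
  rintro ⟨h5Δ, h5c⟩
  exact hW 5 Nat.prime_five (by exact_mod_cast h5Δ) (by exact_mod_cast h5c)

end Fermat.Agent.S51
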