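import Fermat.Statements.S58
import Fermat.Agent.S58.Top.Main
import Fermat.Agent.S58.CH.Export
import Fermat.Agent.S58.Red.Main
import Fermat.Agent.S58.Node.Main
import Fermat.Agent.S35
import Fermat.Agent.CAR.Main.GeoP1F
import Fermat.Agent.CAR.WN.Contract
import Fermat.Agent.GAL.KLC.Main
import Fermat.Agent.GAL.Cheb.Export

set_option autoImplicit false
set_option autoImplicit false
open WeierstrassCurve

namespace Fermat.Agent.S58

theorem result
    (W : WeierstrassCurve ℤ) (hss : W.IsSemistableModel) (N : ℕ)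
    (p : ℕ) [Fact p.Prime] (hp2 : p ≠ 2) (hirr : W.ModRepIsIrreducible p)
    (hp2N : ¬ p ^ 2 ∣ N)
    (hN : W.IsModularModelOfLevel N) (hbad : ∀ ℓ : ℕ, ℓ.Prime → (ℓ : ℤ) ∣ W.Δ → ℓ ∣ N)
    (hN3 : ∀ q : ℕ, q.Prime → ¬ q ^ 3 ∣ N) :
    W.IsModularModelOfLevel W.conductorLevel := by
  refine S58_of_contracts Fermat.Agent.GAL.Cheb.weakChebotarev_asm ?_ ?_
    (fun W hΔ => Red.frobTors_of_CH CH.chStatement W hΔ) (fun W _ => Node.inertiaTors W)
    W hss N hN hbad hN3
  · intro M _ g hg lam _ S O' _ _ _ _ _ _ hlamO' chig hchig iota hlamS hMS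
    exact Fermat.Agent.S35.result hg lam S O' hlamO' chig hchig iota hlamS hMS
  · intro M _ g hg lam _ S O' _ _ _ _ _ _ hlamO' hlam2 chig hchig iota hlamS hMS
    exact Fermat.Agent.CAR.W.S36_of_thmC Fermat.Agent.GAL.KLC.keyLemma
      (fun M' q _ _ hq hqM hM => ⟨(q ^ 2 - 1) ^ 2,
        pow_ne_zero 2 (Nat.sub_ne_zero_of_lt (Nat.one_lt_pow (by norm_num) hq.one_lt)),
        Fermat.Agent.CAR.Main.thmC_of_field hq hqM
          (Fermat.Agent.CAR.Main.thmCField_P1F hM hq hqM)⟩)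
      Fermat.Agent.CAR.WN.wnExport hg lam S O' hlamO' hlam2 chig hchig iota hlamS hMS

end Fermat.Agent.S58
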